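import Fermat.Agent.S55.T.InfRes2H954
import Fermat.Agent.S55.T.UglyH954
import Fermat.Agent.S55.T.CoresH572
import Fermat.Agent.S55.T.SumH635

/-!
# S55 / GAD-INF (helper954): inflation is injective on `p`-torsion — abstract form (INF-ABS)

`π : G' ↠ G` finite groups, `H = ker π`; `C : Rep k G`, `C' : Rep k G'`,
`t : Rep.res π C ⟶ C'` injective with image the `H`-invariants of `C'`;
`H¹(K, C') = 0` for every `p`-subgroup `K ≤ G'`.  Then
`map π t 2 : H²(G, C) → H²(G', C')` is injective on `p`-torsion.
-/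

set_option autoImplicit false
set_option linter.unusedSectionVars false
set_option linter.style.haveILetI false

namespace Fermat.Agent.S55.GAD.H954

open CategoryTheory groupCohomology Function

/-! ## The coset norm `N_{H/H ∩ I}`

`ρ` a representation of `Γ` on `V`, `H, I ≤ Γ` subgroups with `[H : H ∩ I]` finite.
`cosetSum ρ H I = ∑_{x ∈ H/(H ∩ I)} ρ (x̃)` as a linear endomorphism of `V` (with chosen
representatives `x̃`).  On vectors fixed by `H ∩ I`: it does not depend on the representatives,
its values are `H`-invariant, it commutes with `ρ g` for `g` normalising `H` and `I`, and on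
`H`-invariant vectors it is multiplication by `[H : H ∩ I]`. -/

section CosetSum

variable {k Γ V : Type} [CommRing k] [Group Γ] [AddCommGroup V] [Module k V]
  (ρ : Representation k Γ V) (H I : Subgroup Γ) [Finite (H ⧸ I.subgroupOf H)]

/-- `∑_{x ∈ H/(H ∩ I)} ρ (x̃)`. -/
noncomputable def cosetSum : V →ₗ[k] V :=
  letI := Fintype.ofFinite (H ⧸ I.subgroupOf H)
  ∑ x : H ⧸ I.subgroupOf H, ρ ((x.out : H) : Γ)

lemma cosetSum_apply [Fintype (H ⧸ I.subgroupOf H)] (v : V) :
    cosetSum ρ H I v = ∑ x : H ⧸ I.subgroupOf H, ρ ((x.out : H) : Γ) v := by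
  unfold cosetSum
  rw [LinearMap.sum_apply]
  exact Finset.sum_congr (by ext; simp) (fun _ _ => rfl)

variable {ρ H I}

/-- Independence of the representatives. -/
lemma sum_rep_eq_cosetSum [Fintype (H ⧸ I.subgroupOf H)] {v : V}
    (hv : ∀ i ∈ H ⊓ I, ρ i v = v) (r : H ⧸ I.subgroupOf H → H)
    (hr : ∀ x, (QuotientGroup.mk (r x) : H ⧸ I.subgroupOf H) = x) :
    ∑ x : H ⧸ I.subgroupOf H, ρ ((r x : H) : Γ) v = cosetSum ρ H I v := by
  rw [cosetSum_apply]
  refine Finset.sum_congr rfl (fun x _ => ?_)
  have h1 : (QuotientGroup.mk (x.out) : H ⧸ I.subgroupOf H) = QuotientGroup.mk (r x) := by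
    rw [hr x]
    exact QuotientGroup.out_eq' x
  have h2 : (x.out)⁻¹ * r x ∈ I.subgroupOf H := QuotientGroup.eq.1 h1
  have h3 : (((x.out)⁻¹ * r x : H) : Γ) ∈ H ⊓ I :=
    ⟨((x.out)⁻¹ * r x : H).2, Subgroup.mem_subgroupOf.1 h2⟩
  have h4 : ((r x : H) : Γ) = ((x.out : H) : Γ) * (((x.out)⁻¹ * r x : H) : Γ) := by
    push_cast
    group
  rw [h4, map_mul, Module.End.mul_apply, hv _ h3]

/-- The coset norm of a vector fixed by `H ∩ I` is `H`-invariant. -/
lemma cosetSum_invariant {v : V} (hv : ∀ i ∈ H ⊓ I, ρ i v = v) {h : Γ} (hh : h ∈ H) :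
    ρ h (cosetSum ρ H I v) = cosetSum ρ H I v := by
  letI := Fintype.ofFinite (H ⧸ I.subgroupOf H)
  let h' : H := ⟨h, hh⟩
  have key := sum_rep_eq_cosetSum hv (fun x => h' * (h'⁻¹ • x).out) (fun x => by
    show (QuotientGroup.mk (h' * (h'⁻¹ • x).out) : H ⧸ I.subgroupOf H) = x
    have : (QuotientGroup.mk (h' * (h'⁻¹ • x).out) : H ⧸ I.subgroupOf H)
        = h' • (QuotientGroup.mk ((h'⁻¹ • x).out) : H ⧸ I.subgroupOf H) := rfl
    rw [this, QuotientGroup.out_eq', smul_inv_smul])
  conv_rhs => rw [← key]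
  rw [cosetSum_apply, map_sum]
  let e : (H ⧸ I.subgroupOf H) ≃ (H ⧸ I.subgroupOf H) := MulAction.toPerm h'⁻¹
  rw [← Equiv.sum_comp e]
  refine Finset.sum_congr rfl (fun x _ => ?_)
  show ρ h (ρ (((h'⁻¹ • x).out : H) : Γ) v) = ρ ((h' * (h'⁻¹ • x).out : H) : Γ) v
  have : ((h' * (h'⁻¹ • x).out : H) : Γ) = h * (((h'⁻¹ • x).out : H) : Γ) := rfl
  rw [this, map_mul, Module.End.mul_apply]

/-- On `H`-invariant vectors the coset norm is multiplication by the index. -/
lemma cosetSum_of_invariant {v : V} (hv : ∀ h ∈ H, ρ h v = v) :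
    cosetSum ρ H I v = Nat.card (H ⧸ I.subgroupOf H) • v := by
  letI := Fintype.ofFinite (H ⧸ I.subgroupOf H)
  rw [cosetSum_apply]
  rw [Finset.sum_congr rfl (fun x _ => hv _ (x.out : H).2)]
  rw [Finset.sum_const, Finset.card_univ, Nat.card_eq_fintype_card]

/-- The coset norm commutes with `ρ g` for `g` normalising `H` and `I`. -/
lemma cosetSum_equivariant {v : V} (hv : ∀ i ∈ H ⊓ I, ρ i v = v) {g : Γ}
    (hgH : ∀ x, x ∈ H ↔ g * x * g⁻¹ ∈ H) (hgI : ∀ x, x ∈ I ↔ g * x * g⁻¹ ∈ I) :
    ρ g (cosetSum ρ H I v) = cosetSum ρ H I (ρ g v) := by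
  letI := Fintype.ofFinite (H ⧸ I.subgroupOf H)
  -- conjugation by `g` as an automorphism of `H`
  let c : H ≃* H :=
    { toFun := fun x => ⟨g * x * g⁻¹, (hgH x).1 x.2⟩
      invFun := fun x => ⟨g⁻¹ * x * g, (hgH _).2 (by
        have : g * (g⁻¹ * (x : Γ) * g) * g⁻¹ = x := by group
        rw [this]; exact x.2)⟩
      left_inv := fun x => Subtype.ext (by show g⁻¹ * (g * x * g⁻¹) * g = x; group)
      right_inv := fun x => Subtype.ext (by show g * (g⁻¹ * x * g) * g⁻¹ = x; group)
      map_mul' := fun x y => Subtype.ext (by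
        show g * (x * y) * g⁻¹ = (g * x * g⁻¹) * (g * y * g⁻¹); group) }
  have hc : (I.subgroupOf H).map c.toMonoidHom = I.subgroupOf H := by
    ext x
    constructor
    · rintro ⟨y, hy, rfl⟩
      exact Subgroup.mem_subgroupOf.2 ((hgI _).1 (Subgroup.mem_subgroupOf.1 hy))
    · intro hx
      refine ⟨c.symm x, ?_, c.apply_symm_apply x⟩
      refine Subgroup.mem_subgroupOf.2 ((hgI _).2 ?_)
      have : g * ((c.symm x : H) : Γ) * g⁻¹ = x := by
        show g * (g⁻¹ * x * g) * g⁻¹ = x
        group
      rw [this]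
      exact Subgroup.mem_subgroupOf.1 hx
  -- the induced permutation of the cosets
  have hmap : ∀ x y : H, (QuotientGroup.mk x : H ⧸ I.subgroupOf H) = QuotientGroup.mk y →
      (QuotientGroup.mk (c x) : H ⧸ I.subgroupOf H) = QuotientGroup.mk (c y) := by
    intro x y hxy
    rw [QuotientGroup.eq] at hxy ⊢
    have : (c x)⁻¹ * c y = c (x⁻¹ * y) := by rw [map_mul, map_inv]
    rw [this, ← hc]
    exact ⟨_, hxy, rfl⟩
  have hmap' : ∀ x y : H, (QuotientGroup.mk x : H ⧸ I.subgroupOf H) = QuotientGroup.mk y →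
      (QuotientGroup.mk (c.symm x) : H ⧸ I.subgroupOf H) = QuotientGroup.mk (c.symm y) := by
    intro x y hxy
    rw [QuotientGroup.eq] at hxy ⊢
    have : (c.symm x)⁻¹ * c.symm y = c.symm (x⁻¹ * y) := by rw [map_mul, map_inv]
    rw [this]
    rw [← hc] at hxy
    obtain ⟨w, hw, hw'⟩ := hxy
    have : c.symm (x⁻¹ * y) = w := by rw [← hw']; exact c.symm_apply_apply w
    rw [this]
    exact hw
  let σ : (H ⧸ I.subgroupOf H) ≃ (H ⧸ I.subgroupOf H) :=
    { toFun := fun x => QuotientGroup.mk (c x.out)
      invFun := fun x => QuotientGroup.mk (c.symm x.out)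
      left_inv := fun x => by
        show (QuotientGroup.mk (c.symm (QuotientGroup.mk (c x.out) :
          H ⧸ I.subgroupOf H).out) : H ⧸ I.subgroupOf H) = x
        have h1 := hmap' _ _ (QuotientGroup.out_eq' (QuotientGroup.mk (c x.out) :
          H ⧸ I.subgroupOf H))
        rw [h1, c.symm_apply_apply]
        exact QuotientGroup.out_eq' x
      right_inv := fun x => by
        show (QuotientGroup.mk (c (QuotientGroup.mk (c.symm x.out) :
          H ⧸ I.subgroupOf H).out) : H ⧸ I.subgroupOf H) = x
        have h1 := hmap _ _ (QuotientGroup.out_eq' (QuotientGroup.mk (c.symm x.out) :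
          H ⧸ I.subgroupOf H))
        rw [h1, c.apply_symm_apply]
        exact QuotientGroup.out_eq' x }
  have hv' : ∀ i ∈ H ⊓ I, ρ i (ρ g v) = ρ g v := by
    intro i hi
    have h1 : g⁻¹ * i * g ∈ H ⊓ I := by
      refine ⟨(hgH _).2 ?_, (hgI _).2 ?_⟩
      · have : g * (g⁻¹ * i * g) * g⁻¹ = i := by group
        rw [this]; exact hi.1
      · have : g * (g⁻¹ * i * g) * g⁻¹ = i := by group
        rw [this]; exact hi.2
    have h2 := hv _ h1
    have h3 : i * g = g * (g⁻¹ * i * g) := by group
    rw [← Module.End.mul_apply, ← map_mul, h3, map_mul, Module.End.mul_apply, h2]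
  have key := sum_rep_eq_cosetSum hv' (fun x => c (σ.symm x).out) (fun x => by
    show (QuotientGroup.mk (c (σ.symm x).out) : H ⧸ I.subgroupOf H) = x
    exact σ.apply_symm_apply x)
  rw [← key, cosetSum_apply, map_sum, ← Equiv.sum_comp σ.symm]
  refine Finset.sum_congr rfl (fun x _ => ?_)
  show ρ g (ρ (((σ.symm x).out : H) : Γ) v) = ρ ((c (σ.symm x).out : H) : Γ) (ρ g v)
  have h1 : ((c (σ.symm x).out : H) : Γ) = g * (((σ.symm x).out : H) : Γ) * g⁻¹ := rfl
  rw [← Module.End.mul_apply, ← map_mul, ← Module.End.mul_apply, ← map_mul, h1]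
  congr 2
  group

end CosetSum

/-! ## Plumbing -/

section Plumbing

variable {k : Type} [CommRing k]

/-- An element killed by two coprime integers vanishes. -/
lemma eq_zero_of_coprime_nsmul' {X : Type} [AddCommGroup X] {a b : ℕ} (hab : Nat.Coprime a b)
    {x : X} (ha : a • x = 0) (hb : b • x = 0) : x = 0 := by
  have h1 : addOrderOf x ∣ a := addOrderOf_dvd_of_nsmul_eq_zero ha
  have h2 : addOrderOf x ∣ b := addOrderOf_dvd_of_nsmul_eq_zero hb
  have h3 : addOrderOf x = 1 := Nat.eq_one_of_dvd_coprimes hab h1 h2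
  exact AddMonoid.addOrderOf_eq_one_iff.1 h3

variable {G Q : Type} [Group G] [Group Q]

lemma coeffMap_nsmul_id_apply (A : Rep.{0} k G) (m n : ℕ) (y : groupCohomology A n) :
    (T.coeffMap (m • 𝟙 A) n).hom y = m • y := by
  induction m with
  | zero =>
    rw [zero_smul, zero_smul]
    exact T.H635.coeffMap_zero_apply n y
  | succ m ih =>
    rw [succ_nsmul, succ_nsmul, T.H635.coeffMap_add]
    show (T.coeffMap (m • 𝟙 A) n).hom y + (T.coeffMap (𝟙 A) n).hom y = _
    rw [ih, T.H635.coeffMap_id_apply]

/-- Restriction along an injective homomorphism `φ : Q → G` vanishes only on classes killed by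
the index of the image. -/
lemma index_nsmul_eq_zero_of_map_eq_zero [Finite G] (C : Rep.{0} k G) (φ : Q →* G)
    (hφ : Injective φ) (n : ℕ) (hn : 0 < n) (z : groupCohomology C n)
    (hz : (groupCohomology.map φ (𝟙 (Rep.res φ C)) n).hom z = 0) :
    φ.range.index • z = 0 := by
  let e : Q ≃* φ.range := MonoidHom.ofInjective hφ
  let w : Rep.res e.toMonoidHom (T.resSub C φ.range) ⟶ Rep.res φ C :=
    Rep.ofHom ⟨LinearMap.id, fun g => by ext x; rfl⟩
  have h1 := groupCohomology.map_comp (k := k) φ.range.subtype e.toMonoidHom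
    (𝟙 (T.resSub C φ.range)) w n
  have h2 : groupCohomology.map (φ.range.subtype.comp e.toMonoidHom)
      ((Rep.resFunctor e.toMonoidHom).map (𝟙 (T.resSub C φ.range)) ≫ w) n
      = groupCohomology.map φ (𝟙 (Rep.res φ C)) n :=
    groupCohomology.map_congr (by ext x; rfl) (by ext x; rfl) n
  rw [h2] at h1
  have h3 : (groupCohomology.map e.toMonoidHom w n).hom ((T.resMap C φ.range n).hom z) = 0 := by
    have h := congrArg (fun f => f.hom z) h1
    have h' : (groupCohomology.map φ (𝟙 (Rep.res φ C)) n).hom z =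
        (groupCohomology.map e.toMonoidHom w n).hom ((T.resMap C φ.range n).hom z) := h
    rw [hz] at h'
    exact h'.symm
  -- `map e w n` is an isomorphism
  let J := groupCohomology.mapIso (k := k) (A := T.resSub C φ.range) (B := Rep.res φ C) e
    (LinearEquiv.refl k C.V) (fun g => by ext x; rfl) n
  have h4 : J.inv = groupCohomology.map e.toMonoidHom w n :=
    groupCohomology.map_congr rfl (by ext x; rfl) n
  have h5 : (T.resMap C φ.range n).hom z = 0 := by
    have h6 : J.inv.hom ((T.resMap C φ.range n).hom z) = 0 := by rw [h4]; exact h3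
    have h7 := congrArg J.hom.hom h6
    rw [map_zero] at h7
    rw [← h7]
    exact (congrArg (fun f => f.hom ((T.resMap C φ.range n).hom z)) J.inv_hom_id).symm
  exact T.H572.resIndex k G C φ.range n hn z h5

end Plumbing

section Maps

variable {k G G' : Type} [CommRing k] [Group G] [Group G']
  (π : G' →* G) {C : Rep.{0} k G} {C' : Rep.{0} k G'} (t : Rep.res π C ⟶ C')
  (P' : Subgroup G')

lemma t_comm (g : G') (c : C.V) : t.hom (C.ρ (π g) c) = C'.ρ g (t.hom c) :=
  Rep.hom_comm_apply t g c

lemma t_invariant (c : C.V) {h : G'} (hh : h ∈ π.ker) : C'.ρ h (t.hom c) = t.hom c := by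
  rw [← t_comm, MonoidHom.mem_ker.1 hh, map_one]
  rfl

/-- `t`, as a map `C → (C'|_{P'})^K`, `K = ker (π|_{P'})`, equivariant for `P'/K ↪ G`. -/
noncomputable def sHom : Rep.res (QuotientGroup.kerLift (π.comp P'.subtype)) C ⟶
    (T.resSub C' P').quotientToInvariants (π.comp P'.subtype).ker :=
  Rep.ofHom
    { toLinearMap := t.hom.toLinearMap.codRestrict _ (fun c => by
        intro g
        exact t_invariant π t c (h := ((g : P') : G')) (MonoidHom.mem_ker.2 g.2))
      isIntertwining' := fun q => by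
        induction q using QuotientGroup.induction_on with
        | H g =>
          ext c
          exact t_comm π t (g : G') c }

lemma sHom_apply (c : C.V) : (((sHom π t P').hom c : _) : C'.V) = t.hom c := rfl

variable {π t}

lemma inv_mem_inf
    (v : ↥(Representation.invariants
      ((T.resSub C' P').ρ.comp (π.comp P'.subtype).ker.subtype))) :
    ∀ i ∈ π.ker ⊓ P', C'.ρ i (v : C'.V) = v := by
  intro i hi
  exact v.2 ⟨⟨i, hi.2⟩, MonoidHom.mem_ker.2 (MonoidHom.mem_ker.1 hi.1)⟩

variable (ht_inj : Injective t.hom)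
  (ht_inv : ∀ c' : C'.V, (∀ h ∈ π.ker, C'.ρ h c' = c') → ∃ c : C.V, t.hom c = c')

/-- `t` as a linear equivalence `C ≃ C'^H`, `H = ker π`. -/
noncomputable def tEquiv :
    C.V ≃ₗ[k] ↥(Representation.invariants (C'.ρ.comp π.ker.subtype)) :=
  LinearEquiv.ofBijective
    (t.hom.toLinearMap.codRestrict (Representation.invariants (C'.ρ.comp π.ker.subtype))
      (fun c => by
        intro h
        exact t_invariant π t c h.2))
    ⟨fun a b hab => ht_inj (congrArg Subtype.val hab),
     fun ⟨c', hc'⟩ => by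
       obtain ⟨c, hc⟩ := ht_inv c' (fun h hh => hc' ⟨h, hh⟩)
       exact ⟨c, Subtype.ext hc⟩⟩

lemma tEquiv_apply (c : C.V) : ((tEquiv ht_inj ht_inv c : _) : C'.V) = t.hom c := rfl

lemma t_tEquiv_symm (x : ↥(Representation.invariants (C'.ρ.comp π.ker.subtype))) :
    t.hom ((tEquiv ht_inj ht_inv).symm x) = x := by
  rw [← tEquiv_apply ht_inj ht_inv, LinearEquiv.apply_symm_apply]

variable [Finite (π.ker ⧸ P'.subgroupOf π.ker)]

/-- The norm `N_{H/H ∩ P'} : (C'|_{P'})^K → C'^H ≅ C`, as a linear map. -/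
noncomputable def NLin :
    ↥(Representation.invariants ((T.resSub C' P').ρ.comp (π.comp P'.subtype).ker.subtype))
      →ₗ[k] C.V :=
  (tEquiv ht_inj ht_inv).symm.toLinearMap ∘ₗ
    ((cosetSum C'.ρ π.ker P').comp (Submodule.subtype _)).codRestrict
      (Representation.invariants (C'.ρ.comp π.ker.subtype)) (fun v => by
        intro h
        exact cosetSum_invariant (inv_mem_inf P' v) h.2)

lemma t_NLin (v : ↥(Representation.invariants
      ((T.resSub C' P').ρ.comp (π.comp P'.subtype).ker.subtype))) :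
    t.hom (NLin P' ht_inj ht_inv v) = cosetSum C'.ρ π.ker P' (v : C'.V) := by
  unfold NLin
  rw [LinearMap.comp_apply]
  exact t_tEquiv_symm ht_inj ht_inv _

/-- The norm as a morphism of representations of `P'/K`. -/
noncomputable def NHom :
    (T.resSub C' P').quotientToInvariants (π.comp P'.subtype).ker ⟶
      Rep.res (QuotientGroup.kerLift (π.comp P'.subtype)) C :=
  Rep.ofHom
    { toLinearMap := NLin P' ht_inj ht_inv
      isIntertwining' := fun q => by
        induction q using QuotientGroup.induction_on with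
        | H g =>
          ext v
          apply ht_inj
          show t.hom (NLin P' ht_inj ht_inv
              (((T.resSub C' P').ρ.quotientToInvariants (π.comp P'.subtype).ker)
                (QuotientGroup.mk g) v))
            = t.hom (C.ρ (π (g : G')) (NLin P' ht_inj ht_inv v))
          rw [t_comm, t_NLin, t_NLin]
          have h1 : ((((T.resSub C' P').ρ.quotientToInvariants (π.comp P'.subtype).ker)
                (QuotientGroup.mk g) v : _) : C'.V) = C'.ρ (g : G') (v : C'.V) := rfl
          rw [h1]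
          refine (cosetSum_equivariant (inv_mem_inf P' v) ?_ ?_).symm
          · intro x
            constructor
            · intro hx
              exact (inferInstance : (π.ker).Normal).conj_mem x hx g
            · intro hx
              have := (inferInstance : (π.ker).Normal).conj_mem _ hx (g : G')⁻¹
              have h2 : (g : G')⁻¹ * ((g : G') * x * (g : G')⁻¹) * ((g : G')⁻¹)⁻¹ = x := by group
              rwa [h2] at this
          · intro x
            constructor
            · intro hx
              exact P'.mul_mem (P'.mul_mem g.2 hx) (P'.inv_mem g.2)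
            · intro hx
              have := P'.mul_mem (P'.mul_mem (P'.inv_mem g.2) hx) g.2
              have h2 : (g : G')⁻¹ * ((g : G') * x * (g : G')⁻¹) * (g : G') = x := by group
              rwa [h2] at this }

lemma NHom_sHom (c : C.V) :
    (NHom P' ht_inj ht_inv).hom ((sHom π t P').hom c) =
      Nat.card (π.ker ⧸ P'.subgroupOf π.ker) • c := by
  apply ht_inj
  show t.hom (NLin P' ht_inj ht_inv ((sHom π t P').hom c)) = _
  rw [t_NLin, map_nsmul]
  exact cosetSum_of_invariant (fun h hh => t_invariant π t c hh)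

end Maps

section Main

variable {k G G' : Type} [CommRing k] [Group G] [Group G'] [Finite G']

/-- **INF-ABS.**  Inflation `H²(G, C) → H²(G', C')` along `π : G' ↠ G` and
`t : C ≅ C'^{ker π} ⊆ C'` is injective on `p`-torsion, provided `H¹(K, C') = 0` for all
`p`-subgroups `K ≤ G'`. -/
theorem inf_injective_on_pTorsion (p : ℕ) (hp : p.Prime)
    (π : G' →* G) (hπ : Surjective π)
    (C : Rep.{0} k G) (C' : Rep.{0} k G') (t : Rep.res π C ⟶ C')
    (ht_inj : Injective t.hom)
    (ht_inv : ∀ c' : C'.V, (∀ h ∈ π.ker, C'.ρ h c' = c') → ∃ c : C.V, t.hom c = c')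
    (hH1 : ∀ K : Subgroup G', IsPGroup p K →
      Limits.IsZero (groupCohomology (T.resSub C' K) 1))
    (z : groupCohomology C 2) (hz : p • z = 0)
    (h0 : (groupCohomology.map π t 2).hom z = 0) : z = 0 := by
  classical
  haveI : Fact p.Prime := ⟨hp⟩
  haveI : Finite G := Finite.of_surjective π hπ
  -- Sylow subgroups `I₀ ≤ H = ker π` and `P' ≥ I₀`
  obtain ⟨I₀⟩ : Nonempty (Sylow p π.ker) := inferInstance
  obtain ⟨P', hP'⟩ := (I₀.isPGroup'.map π.ker.subtype).exists_le_sylow
  -- the index `m = [H : H ∩ P']` is prime to `p`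
  have hm : Nat.Coprime p (Nat.card (π.ker ⧸ (P' : Subgroup G').subgroupOf π.ker)) := by
    rw [Nat.Prime.coprime_iff_not_dvd hp]
    intro hdvd
    have hle : (I₀ : Subgroup π.ker) ≤ (P' : Subgroup G').subgroupOf π.ker := by
      intro x hx
      exact Subgroup.mem_subgroupOf.2 (hP' ⟨x, hx, rfl⟩)
    have h1 : ((P' : Subgroup G').subgroupOf π.ker).index ∣ (I₀ : Subgroup π.ker).index :=
      Subgroup.index_dvd_of_le hle
    rw [← Subgroup.index_eq_card] at hdvd
    exact I₀.not_dvd_index (hdvd.trans h1)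
  -- the index of the image of `P'` is prime to `p`
  have hidx : Nat.Coprime p (QuotientGroup.kerLift (π.comp (P' : Subgroup G').subtype)).range.index := by
    rw [Nat.Prime.coprime_iff_not_dvd hp]
    intro hdvd
    have h1 : (QuotientGroup.kerLift (π.comp (P' : Subgroup G').subtype)).range
        = (P' : Subgroup G').map π := by
      ext x
      constructor
      · rintro ⟨q, rfl⟩
        induction q using QuotientGroup.induction_on with
        | H g => exact ⟨g, g.2, rfl⟩
      · rintro ⟨g, hg, rfl⟩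
        exact ⟨QuotientGroup.mk ⟨g, hg⟩, rfl⟩
    rw [h1] at hdvd
    exact P'.not_dvd_index (hdvd.trans ((P' : Subgroup G').index_map_dvd hπ))
  have hPp : IsPGroup p (P' : Subgroup G') := P'.isPGroup'
  generalize (P' : Subgroup G') = P at hm hidx hP' hPp
  -- Step 1: restrict to `P`
  have h1 := groupCohomology.map_comp (k := k) π P.subtype t (𝟙 (T.resSub C' P)) 2
  have h2 := groupCohomology.map_comp (k := k) (QuotientGroup.kerLift (π.comp P.subtype))
    (QuotientGroup.mk' (π.comp P.subtype).ker) (sHom π t P)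
    (Rep.ofHom ((T.resSub C' P).ρ.quotientToInvariants_lift (π.comp P.subtype).ker)) 2
  have h12 : groupCohomology.map (π.comp P.subtype)
      ((Rep.resFunctor P.subtype).map t ≫ 𝟙 (T.resSub C' P)) 2
      = groupCohomology.map ((QuotientGroup.kerLift (π.comp P.subtype)).comp
          (QuotientGroup.mk' (π.comp P.subtype).ker))
        ((Rep.resFunctor (QuotientGroup.mk' (π.comp P.subtype).ker)).map (sHom π t P) ≫
          Rep.ofHom ((T.resSub C' P).ρ.quotientToInvariants_lift (π.comp P.subtype).ker)) 2 :=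
    groupCohomology.map_congr (by ext x; rfl) (by ext x; rfl) 2
  rw [h12, h2] at h1
  -- Step 2: inflation from `P/K` is injective
  have hK : ∀ x : groupCohomology.H1 (Rep.res (π.comp P.subtype).ker.subtype (T.resSub C' P)),
      x = 0 := by
    intro x
    have hz1 := hH1 ((π.comp P.subtype).ker.map P.subtype)
      (hPp.to_le (Subgroup.map_subtype_le _))
    exact T.H954.eq_zero_of_iso_of_isZero
      (T.H954.resResIso C' P (π.comp P.subtype).ker 1) hz1 x
  have hinj := Fermat.Agent.S55.H954.inf_injective (T.resSub C' P) (π.comp P.subtype).ker hK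
  have h3 : (groupCohomology.map (QuotientGroup.kerLift (π.comp P.subtype)) (sHom π t P) 2).hom z
      = 0 := by
    apply hinj
    have h := congrArg (fun f => f.hom z) h1
    have h' : (groupCohomology.map (QuotientGroup.mk' (π.comp P.subtype).ker)
          (Rep.ofHom ((T.resSub C' P).ρ.quotientToInvariants_lift (π.comp P.subtype).ker)) 2).hom
        ((groupCohomology.map (QuotientGroup.kerLift (π.comp P.subtype)) (sHom π t P) 2).hom z)
        = (groupCohomology.map P.subtype (𝟙 (T.resSub C' P)) 2).hom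
            ((groupCohomology.map π t 2).hom z) := h
    rw [h0, map_zero] at h'
    rw [map_zero]
    exact h'
  -- Step 3: the norm `N`, with `N ∘ s = m`
  have h4 := groupCohomology.map_comp (k := k) (QuotientGroup.kerLift (π.comp P.subtype))
    (MonoidHom.id _) (sHom π t P) (NHom P ht_inj ht_inv) 2
  have h5 := groupCohomology.map_comp (k := k) (QuotientGroup.kerLift (π.comp P.subtype))
    (MonoidHom.id _) (𝟙 (Rep.res (QuotientGroup.kerLift (π.comp P.subtype)) C))
    (Nat.card (π.ker ⧸ P.subgroupOf π.ker) •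
      𝟙 (Rep.res (QuotientGroup.kerLift (π.comp P.subtype)) C)) 2
  have h45 : groupCohomology.map ((QuotientGroup.kerLift (π.comp P.subtype)).comp (MonoidHom.id _))
      ((Rep.resFunctor (MonoidHom.id _)).map (sHom π t P) ≫ NHom P ht_inj ht_inv) 2
      = groupCohomology.map ((QuotientGroup.kerLift (π.comp P.subtype)).comp (MonoidHom.id _))
        ((Rep.resFunctor (MonoidHom.id _)).map
            (𝟙 (Rep.res (QuotientGroup.kerLift (π.comp P.subtype)) C)) ≫
          (Nat.card (π.ker ⧸ P.subgroupOf π.ker) •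
            𝟙 (Rep.res (QuotientGroup.kerLift (π.comp P.subtype)) C))) 2 := by
    refine groupCohomology.map_congr rfl ?_ 2
    ext c
    exact NHom_sHom P ht_inj ht_inv c
  rw [h45, h5] at h4
  have h6 : Nat.card (π.ker ⧸ P.subgroupOf π.ker) •
      (groupCohomology.map (QuotientGroup.kerLift (π.comp P.subtype))
        (𝟙 (Rep.res (QuotientGroup.kerLift (π.comp P.subtype)) C)) 2).hom z = 0 := by
    have h := congrArg (fun f => f.hom z) h4
    have h' : (T.coeffMap (Nat.card (π.ker ⧸ P.subgroupOf π.ker) •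
          𝟙 (Rep.res (QuotientGroup.kerLift (π.comp P.subtype)) C)) 2).hom
        ((groupCohomology.map (QuotientGroup.kerLift (π.comp P.subtype))
          (𝟙 (Rep.res (QuotientGroup.kerLift (π.comp P.subtype)) C)) 2).hom z)
        = (T.coeffMap (NHom P ht_inj ht_inv) 2).hom
          ((groupCohomology.map (QuotientGroup.kerLift (π.comp P.subtype)) (sHom π t P) 2).hom z) :=
      h
    rw [h3, map_zero, coeffMap_nsmul_id_apply] at h'
    exact h'
  have h7 : (groupCohomology.map (QuotientGroup.kerLift (π.comp P.subtype))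
        (𝟙 (Rep.res (QuotientGroup.kerLift (π.comp P.subtype)) C)) 2).hom z = 0 := by
    refine eq_zero_of_coprime_nsmul' hm ?_ h6
    rw [← map_nsmul, hz, map_zero]
  -- Step 4: restriction to the image of `P` is injective on `p`-torsion
  have h8 := index_nsmul_eq_zero_of_map_eq_zero C (QuotientGroup.kerLift (π.comp P.subtype))
    (QuotientGroup.kerLift_injective _) 2 (by norm_num) z h7
  exact eq_zero_of_coprime_nsmul' hidx hz h8

end Main

end Fermat.Agent.S55.GAD.H954
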