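import Fermat.Agent.S55.GAD.Spec
import Fermat.Agent.S55.GAD.H954.InfAbs

/-!
# S55 / GAD-INF (helper954): `gd8` for the concrete tower datum, from descent

* `DescStatement S` (= leaf GAD-DESC): for `L ≤ L'` the transition map `trT h : C(L) → C(L')` is
  injective, with image the `Gal(L'/L)`-invariants.
* `infInj_of : p.Prime → ClassModuleSpec S p → DescStatement S → InfInjSpec S p`
  (only the `H¹`-vanishing part of the class module property is used), via the abstract
  `inf_injective_on_pTorsion` (INF-ABS).
-/

set_option autoImplicit false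

open CategoryTheory

namespace Fermat.Agent.S55.GAD.H954

open Fermat.Agent.S55 Fermat.Agent.S55.Tow Fermat.Agent.S55.GAD

variable (S : Finset Nat.Primes) (p : ℕ)

/-- **GAD-DESC (Galois descent for the class modules).**  For `L ≤ L'` the canonical transition
map `C(L) → C(L')` is injective and its image is the module of `Gal(L'/L)`-invariants. -/
def DescStatement : Prop :=
  ∀ {L L' : Level S} (h : L ≤ L'),
    Function.Injective (trT h).hom ∧
    ∀ c' : (CT L').V, (∀ g ∈ Level.relGal h, (CT L').ρ g c' = c') →
      ∃ c : (CT L).V, (trT h).hom c = c'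

/-- `H¹(K, C(L)) = 0` for all `p`-subgroups `K` (a consequence of `ClassModuleSpec`). -/
def H1VanishStatement : Prop :=
  ∀ L : Level S, L.HasMu p → ∀ K : Subgroup L.Gal, IsPGroup p K →
    Limits.IsZero (groupCohomology (T.resSub (CT L) K) 1)

variable {S p}

theorem h1Vanish_of (hCM : ClassModuleSpec S p) : H1VanishStatement S p := by
  intro L hL K hK
  obtain ⟨γ, hγ⟩ := hCM L hL
  exact (hγ K hK).1

lemma proj_surjective {L L' : Level S} (h : L ≤ L') : Function.Surjective (Level.proj h) := by
  intro g
  induction g using QuotientGroup.induction_on with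
  | H σ => exact ⟨QuotientGroup.mk σ, rfl⟩

/-- **GAD-INF = gd8** from descent and `H¹`-vanishing. -/
theorem infInj_of_h1 (hp : p.Prime) (hH1 : H1VanishStatement S p) (hD : DescStatement S) :
    InfInjSpec S p := by
  intro L L' h hL z hz h0
  obtain ⟨hinj, hinv⟩ := hD h
  exact inf_injective_on_pTorsion p hp (Level.proj h) (proj_surjective h) (CT L) (CT L')
    (trT h) hinj hinv (hH1 L' (hL.mono h)) z hz h0

/-- **GAD-INF = gd8** from descent and the class module property. -/
theorem infInj_of (hp : p.Prime) (hCM : ClassModuleSpec S p) (hD : DescStatement S) :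
    InfInjSpec S p :=
  infInj_of_h1 hp (h1Vanish_of hCM) hD

end Fermat.Agent.S55.GAD.H954
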